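import Mathlib

set_option autoImplicit false

/-!
# Residues of Laurent series

Derivation and residue on `LaurentSeries R`, and the invariance of the residue under a change
of local parameter in arbitrary characteristic.
-/

namespace Fermat.Agent.Lib.Residue

open HahnSeries LaurentSeries

variable {R : Type*} [CommRing R]

/-- The derivative of a Laurent series. -/
noncomputable def D (f : R⸨X⸩) : R⸨X⸩ := LaurentSeries.derivative R f

/-- The residue of a Laurent series: the coefficient of `X⁻¹`. -/
def res (f : R⸨X⸩) : R := f.coeff (-1)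

theorem D_coeff (f : R⸨X⸩) (n : ℤ) : (D f).coeff n = ((n + 1 : ℤ) : R) * f.coeff (n + 1) := by
  simp [D, zsmul_eq_mul]

@[simp] theorem D_add (f g : R⸨X⸩) : D (f + g) = D f + D g := by
  simp [D]

@[simp] theorem D_zero : D (0 : R⸨X⸩) = 0 := by
  simp [D]

@[simp] theorem D_neg (f : R⸨X⸩) : D (-f) = -D f := by
  simp [D]

@[simp] theorem D_sub (f g : R⸨X⸩) : D (f - g) = D f - D g := by
  simp [D]

theorem D_smul (c : R) (f : R⸨X⸩) : D (c • f) = c • D f := by
  simp [D]

theorem D_single (n : ℤ) (c : R) : D (single n c : R⸨X⸩) = single (n - 1) ((n : R) * c) := by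
  ext m
  rw [D_coeff]
  by_cases h : m = n - 1
  · subst h
    simp
  · have h' : m + 1 ≠ n := fun hh => h (by omega)
    rw [coeff_single_of_ne h', coeff_single_of_ne h, mul_zero]

theorem D_C (c : R) : D (HahnSeries.C c : R⸨X⸩) = 0 := by
  rw [HahnSeries.C_apply, D_single]
  simp

theorem D_one : D (1 : R⸨X⸩) = 0 := by
  have : (1 : R⸨X⸩) = HahnSeries.C 1 := by simp
  rw [this, D_C]

theorem D_coe (p : PowerSeries R) :
    D (p : R⸨X⸩) = ((PowerSeries.derivative R p : PowerSeries R) : R⸨X⸩) := by
  ext n
  rw [D_coeff]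
  rcases lt_or_ge n 0 with hn | hn
  · rw [PowerSeries.coeff_coe, PowerSeries.coeff_coe, if_pos hn]
    rcases lt_or_eq_of_le (show n + 1 ≤ 0 by omega) with h | h
    · rw [if_pos h, mul_zero]
    · rw [h]; simp
  · obtain ⟨m, rfl⟩ := Int.eq_ofNat_of_zero_le hn
    rw [show ((m : ℤ) + 1) = ((m + 1 : ℕ) : ℤ) by push_cast; ring, coeff_coe_powerSeries,
      coeff_coe_powerSeries, PowerSeries.coeff_derivative]
    push_cast
    ring

/-- multiplication by a monomial shifts coefficients -/
theorem coeff_single_mul' (n : ℤ) (c : R) (f : R⸨X⸩) (m : ℤ) :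
    (single n c * f).coeff m = c * f.coeff (m - n) := by
  have := HahnSeries.coeff_single_mul_add (r := c) (x := f) (a := m - n) (b := n)
  rwa [sub_add_cancel] at this

theorem D_single_mul (n : ℤ) (c : R) (f : R⸨X⸩) :
    D (single n c * f) = single (n - 1) ((n : R) * c) * f + single n c * D f := by
  ext m
  rw [D_coeff, coeff_add, coeff_single_mul', coeff_single_mul', coeff_single_mul', D_coeff]
  rw [show m + 1 - n = m - (n - 1) by ring, show m - n + 1 = m - (n - 1) by ring]
  push_cast
  ring

/-- Every Laurent series is a monomial times a power series. -/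
theorem exists_single_mul_coe (f : R⸨X⸩) : ∃ (n : ℤ) (p : PowerSeries R),
    f = single n (1 : R) * (p : R⸨X⸩) :=
  ⟨f.order, f.powerSeriesPart, (single_order_mul_powerSeriesPart f).symm⟩

/-- Leibniz rule. -/
theorem D_mul (f g : R⸨X⸩) : D (f * g) = D f * g + f * D g := by
  obtain ⟨n, p, rfl⟩ := exists_single_mul_coe f
  obtain ⟨m, q, rfl⟩ := exists_single_mul_coe g
  have h1 : single n (1 : R) * (p : R⸨X⸩) * (single m (1 : R) * (q : R⸨X⸩)) =
      single (n + m) (1 : R) * ((p * q : PowerSeries R) : R⸨X⸩) := by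
    rw [PowerSeries.coe_mul, mul_mul_mul_comm, single_mul_single, one_mul]
  rw [h1, D_single_mul, D_single_mul, D_single_mul, D_coe, D_coe, D_coe,
    Derivation.leibniz, PowerSeries.coe_add, smul_eq_mul, smul_eq_mul,
    PowerSeries.coe_mul, PowerSeries.coe_mul, PowerSeries.coe_mul]
  have e1 : (single (n + m - 1) (((n + m : ℤ) : R) * 1) : R⸨X⸩) =
      single (n - 1) ((n : R) * 1) * single m (1 : R) +
        single n (1 : R) * single (m - 1) ((m : R) * 1) := by
    rw [single_mul_single, single_mul_single, show n - 1 + m = n + m - 1 by ring,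
      show n + (m - 1) = n + m - 1 by ring, ← single_add]
    congr 1
    push_cast
    ring
  have e2 : (single (n + m) (1 : R) : R⸨X⸩) = single n (1 : R) * single m (1 : R) := by
    rw [single_mul_single, one_mul]
  rw [e1, e2]
  ring

theorem D_pow (f : R⸨X⸩) (n : ℕ) : D (f ^ (n + 1)) = ((n + 1 : ℕ) : R⸨X⸩) * f ^ n * D f := by
  induction n with
  | zero => simp
  | succ n ih =>
    rw [pow_succ, D_mul, ih]
    push_cast
    ring

/-! ### Residues -/

theorem res_add (f g : R⸨X⸩) : res (f + g) = res f + res g := by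
  simp [res]

theorem res_zero : res (0 : R⸨X⸩) = 0 := by
  simp [res]

theorem res_neg (f : R⸨X⸩) : res (-f) = -res f := by
  simp [res]

theorem res_sub (f g : R⸨X⸩) : res (f - g) = res f - res g := by
  simp [res]

theorem res_smul (c : R) (f : R⸨X⸩) : res (c • f) = c * res f := by
  simp [res]

theorem res_C_mul (c : R) (f : R⸨X⸩) : res (HahnSeries.C c * f) = c * res f := by
  rw [HahnSeries.C_mul_eq_smul, res_smul]

theorem res_sum {ι : Type*} (s : Finset ι) (f : ι → R⸨X⸩) :
    res (∑ i ∈ s, f i) = ∑ i ∈ s, res (f i) := by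
  classical
  induction s using Finset.induction_on with
  | empty => simp [res_zero]
  | insert a s ha ih => rw [Finset.sum_insert ha, Finset.sum_insert ha, res_add, ih]

/-- The residue of a derivative vanishes. -/
theorem res_D (f : R⸨X⸩) : res (D f) = 0 := by
  rw [res, D_coeff]
  simp

/-- A power series has no residue. -/
theorem res_coe (p : PowerSeries R) : res (p : R⸨X⸩) = 0 := by
  rw [res, PowerSeries.coeff_coe, if_pos (by norm_num)]

theorem res_single (n : ℤ) (c : R) : res (single n c : R⸨X⸩) = if n = -1 then c else 0 := by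
  rw [res]
  split_ifs with h
  · subst h; simp
  · exact coeff_single_of_ne (fun hh => h hh.symm)

/-- residue of `X^n * p` for a power series `p` -/
theorem res_single_mul_coe (n : ℕ) (p : PowerSeries R) :
    res (single (-(n : ℤ)) (1 : R) * (p : R⸨X⸩)) =
      if n = 0 then 0 else PowerSeries.coeff (n - 1) p := by
  rw [res, coeff_single_mul', one_mul]
  rcases Nat.eq_zero_or_pos n with h | h
  · subst h
    simp only [CharP.cast_eq_zero, neg_zero, sub_zero, if_true]
    rw [PowerSeries.coeff_coe, if_pos (by norm_num)]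
  · rw [if_neg (by omega)]
    rw [show (-1 : ℤ) - -(n : ℤ) = ((n - 1 : ℕ) : ℤ) by
      rw [Nat.cast_sub h]; push_cast; ring]
    rw [coeff_coe_powerSeries]

end Fermat.Agent.Lib.Residue
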