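import Fermat.Agent.Lib.Residue.P1
import Fermat.Prelude.Def_ModularCurve_X0

set_option autoImplicit false

/-!
# Residues and the ramified substitution `x = y ^ e`

`ModularCurve.qExpand R e : R⸨X⸩ →+* R⸨X⸩` is the substitution `f(x) ↦ f(y ^ e)`.  We decompose
every Laurent series in `y` on the basis `1, y, …, y ^ (e - 1)` over the image, compute the local
trace, prove the chain rule and the compatibility of residues with the local trace.
-/

namespace Fermat.Agent.Lib.Residue

open HahnSeries LaurentSeries ModularCurve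

variable {R : Type*} [CommRing R] (e : ℕ) [NeZero e]

/-- The `j`-th section of a Laurent series in `y`: the series in `x = y ^ e` whose `n`-th
coefficient is the coefficient of `y ^ (e n + j)`. -/
noncomputable def sec (j : ℕ) (g : R⸨X⸩) : R⸨X⸩ :=
  HahnSeries.ofSuppBddBelow (fun n : ℤ => g.coeff ((e : ℤ) * n + j)) <| by
    refine ⟨min (g.order - j) 0, fun n hn => ?_⟩
    by_contra hlt
    rw [not_le] at hlt
    apply hn
    apply coeff_eq_zero_of_lt_order
    have h1 : n < g.order - j := lt_of_lt_of_le hlt (min_le_left _ _)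
    have h2 : n < 0 := lt_of_lt_of_le hlt (min_le_right _ _)
    have he : (1 : ℤ) ≤ (e : ℤ) := by exact_mod_cast Nat.one_le_iff_ne_zero.mpr (NeZero.ne e)
    nlinarith

@[simp] theorem sec_coeff (j : ℕ) (g : R⸨X⸩) (n : ℤ) :
    (sec e j g).coeff n = g.coeff ((e : ℤ) * n + j) := rfl

theorem sec_add (j : ℕ) (g h : R⸨X⸩) : sec e j (g + h) = sec e j g + sec e j h := by
  ext n; simp

theorem sec_zero (j : ℕ) : sec e j (0 : R⸨X⸩) = 0 := by
  ext n; simp

theorem sec_sum {ι : Type*} (j : ℕ) (s : Finset ι) (g : ι → R⸨X⸩) :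
    sec e j (∑ i ∈ s, g i) = ∑ i ∈ s, sec e j (g i) := by
  classical
  induction s using Finset.induction_on with
  | empty => simp [sec_zero]
  | insert a s ha ih => rw [Finset.sum_insert ha, Finset.sum_insert ha, sec_add, ih]

/-- Sections of a basis vector times an element of the image. -/
theorem sec_single_mul_qExpand {i j : ℕ} (hi : i < e) (hj : j < e) (h : R⸨X⸩) :
    sec e j (single (i : ℤ) (1 : R) * qExpand R e h) = if i = j then h else 0 := by
  ext n
  rw [sec_coeff, coeff_single_mul', one_mul]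
  split_ifs with hij
  · subst hij
    rw [add_sub_cancel_right, qExpand_coeff_mul]
  · rw [coeff_zero]
    apply qExpand_coeff_of_not_dvd
    rintro ⟨m, hm⟩
    apply hij
    have h1 : ((j : ℤ) - i) = (e : ℤ) * (m - n) := by linarith
    have h2 : (e : ℤ) ∣ (j : ℤ) - i := ⟨m - n, h1⟩
    have h3 : |(j : ℤ) - i| < e := by
      rw [abs_lt]; constructor <;> omega
    have h4 := Int.eq_zero_of_abs_lt_dvd h2 h3
    omega

/-- Decomposition on the basis `1, y, …, y ^ (e - 1)`. -/
theorem sum_single_mul_qExpand_sec (g : R⸨X⸩) :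
    ∑ j ∈ Finset.range e, single (j : ℤ) (1 : R) * qExpand R e (sec e j g) = g := by
  ext m
  rw [HahnSeries.coeff_sum] 
  have he : (0 : ℤ) < (e : ℤ) := by exact_mod_cast Nat.pos_of_ne_zero (NeZero.ne e)
  -- the unique `j` congruent to `m`
  set j₀ : ℕ := (m % (e : ℤ)).toNat with hj₀
  have hj₀' : (j₀ : ℤ) = m % (e : ℤ) := Int.toNat_of_nonneg (Int.emod_nonneg m he.ne')
  have hj₀lt : j₀ < e := by
    have := Int.emod_lt_of_pos m he
    omega
  rw [Finset.sum_eq_single_of_mem j₀ (Finset.mem_range.mpr hj₀lt)]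
  · rw [coeff_single_mul', one_mul]
    have hm : m - (j₀ : ℤ) = (e : ℤ) * (m / (e : ℤ)) := by
      rw [hj₀']
      have := Int.emod_add_mul_ediv m (e : ℤ)
      linarith
    rw [hm, qExpand_coeff_mul, sec_coeff, ← hm, sub_add_cancel]
  · intro j hj hjne
    rw [coeff_single_mul', one_mul]
    apply qExpand_coeff_of_not_dvd
    intro hdvd
    apply hjne
    have hjlt : j < e := Finset.mem_range.mp hj
    have h1 : (m - (j : ℤ)) % (e : ℤ) = 0 := Int.emod_eq_zero_of_dvd hdvd
    have h2 : m % (e : ℤ) = (j : ℤ) % (e : ℤ) := by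
      have := Int.emod_emod_of_dvd m (dvd_refl (e : ℤ))
      rw [← Int.sub_add_cancel m (j : ℤ), Int.add_emod, h1, zero_add, Int.emod_emod_of_dvd _ (dvd_refl _)]
    have h3 : (j : ℤ) % (e : ℤ) = j := Int.emod_eq_of_lt (by omega) (by omega)
    omega

/-- Sections are linear over the image of `qExpand`. -/
theorem sec_qExpand_mul {j : ℕ} (hj : j < e) (f g : R⸨X⸩) :
    sec e j (qExpand R e f * g) = f * sec e j g := by
  conv_lhs => rw [← sum_single_mul_qExpand_sec e g, Finset.mul_sum, sec_sum]
  have : ∀ i ∈ Finset.range e,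
      sec e j (qExpand R e f * (single (i : ℤ) (1 : R) * qExpand R e (sec e i g))) =
        if i = j then f * sec e i g else 0 := by
    intro i hi
    have h1 : qExpand R e f * (single (i : ℤ) (1 : R) * qExpand R e (sec e i g)) =
        single (i : ℤ) (1 : R) * qExpand R e (f * sec e i g) := by
      rw [map_mul]; ring
    rw [h1, sec_single_mul_qExpand e (Finset.mem_range.mp hi) hj]
  rw [Finset.sum_congr rfl this, Finset.sum_ite_eq' (Finset.range e) j, if_pos (Finset.mem_range.mpr hj)]

/-- The local trace of `R⸨y⸩` over `R⸨x⸩`, `x = y ^ e`. -/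
noncomputable def trE (g : R⸨X⸩) : R⸨X⸩ := HahnSeries.C (e : R) * sec e 0 g

theorem trE_coeff (g : R⸨X⸩) (n : ℤ) : (trE e g).coeff n = (e : R) * g.coeff ((e : ℤ) * n) := by
  rw [trE, HahnSeries.C_mul_eq_smul, HahnSeries.coeff_smul, sec_coeff, smul_eq_mul]
  simp

theorem trE_add (g h : R⸨X⸩) : trE e (g + h) = trE e g + trE e h := by
  rw [trE, trE, trE, sec_add, mul_add]

/-- Projection formula. -/
theorem trE_qExpand_mul (f g : R⸨X⸩) : trE e (qExpand R e f * g) = f * trE e g := by
  rw [trE, trE, sec_qExpand_mul e (Nat.pos_of_ne_zero (NeZero.ne e))]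
  ring

/-- The matrix trace of multiplication by `g` on the basis `1, y, …, y ^ (e - 1)` is `trE g`. -/
theorem sum_sec_mul_single (g : R⸨X⸩) :
    ∑ j ∈ Finset.range e, sec e j (g * single (j : ℤ) (1 : R)) = trE e g := by
  have : ∀ j ∈ Finset.range e, sec e j (g * single (j : ℤ) (1 : R)) = sec e 0 g := by
    intro j _
    ext n
    rw [sec_coeff, sec_coeff, mul_comm, coeff_single_mul', one_mul]
    congr 1
    push_cast
    ring
  rw [Finset.sum_congr rfl this, Finset.sum_const, Finset.card_range, trE, nsmul_eq_mul]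
  congr 1

/-- Chain rule for `x = y ^ e`. -/
theorem D_qExpand (h : R⸨X⸩) :
    D (qExpand R e h) = D (single (e : ℤ) (1 : R)) * qExpand R e (D h) := by
  ext n
  rw [D_coeff, D_single, coeff_single_mul', mul_one]
  by_cases hdvd : (e : ℤ) ∣ n + 1
  · obtain ⟨m, hm⟩ := hdvd
    have h1 : n - ((e : ℤ) - 1) = (e : ℤ) * (m - 1) := by rw [mul_sub, ← hm]; ring
    rw [hm, qExpand_coeff_mul, h1, qExpand_coeff_mul, D_coeff, sub_add_cancel]
    push_cast
    ring
  · rw [qExpand_coeff_of_not_dvd e h hdvd, mul_zero]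
    have h2 : ¬ (e : ℤ) ∣ n - ((e : ℤ) - 1) := by
      intro hh
      apply hdvd
      have : n + 1 = (n - ((e : ℤ) - 1)) + (e : ℤ) := by ring
      rw [this]
      exact dvd_add hh (dvd_refl _)
    rw [qExpand_coeff_of_not_dvd e _ h2, mul_zero]

/-- Residues and the local trace. -/
theorem res_trE_mul (G F : R⸨X⸩) :
    res (trE e G * F) = res (G * qExpand R e F * D (single (e : ℤ) (1 : R))) := by
  rw [mul_comm (trE e G), ← trE_qExpand_mul, res, trE_coeff, D_single, mul_one,
    mul_comm _ (single _ _), res, coeff_single_mul']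
  have h1 : ((e : ℤ) : R) = (e : R) := by push_cast; rfl
  have h2 : (e : ℤ) * -1 = -1 - ((e : ℤ) - 1) := by ring
  rw [h1, h2, mul_comm (qExpand R e F) G]

/-- Residues, local trace and differentials: the residue at `x` of `Tr(G) f dh` equals the
residue at `y` of `G f(y ^ e) d(h(y ^ e))`. -/
theorem res_trE_mul_D (G f h : R⸨X⸩) :
    res (trE e G * f * D h) = res (G * qExpand R e f * D (qExpand R e h)) := by
  rw [mul_assoc, res_trE_mul, D_qExpand, map_mul]
  congr 1
  ring

end Fermat.Agent.Lib.Residue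

namespace Fermat.Agent.Lib.Residue

open HahnSeries LaurentSeries ModularCurve

section Trace

/-- The ring `R⸨y⸩` regarded as an algebra over `R⸨x⸩` via `x = y ^ e`. -/
def RamExt (R : Type*) [CommRing R] (_e : ℕ) : Type _ := R⸨X⸩

variable {R : Type*} [CommRing R] (e : ℕ)

noncomputable instance : CommRing (RamExt R e) := inferInstanceAs (CommRing R⸨X⸩)

/-- The identity map `R⸨X⸩ → RamExt R e`. -/
noncomputable def RamExt.of : R⸨X⸩ ≃+* RamExt R e := RingEquiv.refl _

variable [NeZero e]

noncomputable instance : Algebra R⸨X⸩ (RamExt R e) :=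
  ((RamExt.of e).toRingHom.comp (qExpand R e)).toAlgebra

theorem RamExt.algebraMap_apply (f : R⸨X⸩) :
    algebraMap R⸨X⸩ (RamExt R e) f = RamExt.of e (qExpand R e f) := rfl

theorem RamExt.smul_def (f : R⸨X⸩) (g : RamExt R e) :
    f • g = RamExt.of e (qExpand R e f * (RamExt.of e).symm g) := by
  rw [Algebra.smul_def]; rfl

/-- Coordinates on the basis `1, y, …, y ^ (e - 1)`. -/
noncomputable def secEquiv : RamExt R e ≃ₗ[R⸨X⸩] (Fin e → R⸨X⸩) where
  toFun := fun g j => sec e j ((RamExt.of e).symm g)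
  map_add' := fun g h => by
    funext j
    exact sec_add e j _ _
  map_smul' := fun f g => by
    funext j
    rw [RingHom.id_apply, Pi.smul_apply, smul_eq_mul, RamExt.smul_def]
    exact sec_qExpand_mul e j.2 f _
  invFun := fun c =>
    RamExt.of e (∑ j : Fin e, single ((j : ℕ) : ℤ) (1 : R) * qExpand R e (c j))
  left_inv := fun g => by
    show RamExt.of e (∑ j : Fin e, single ((j : ℕ) : ℤ) (1 : R) *
      qExpand R e (sec e j ((RamExt.of e).symm g))) = g
    rw [Fin.sum_univ_eq_sum_range
      (fun j => single ((j : ℕ) : ℤ) (1 : R) * qExpand R e (sec e j ((RamExt.of e).symm g))) e,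
      sum_single_mul_qExpand_sec e]
    rfl
  right_inv := fun c => by
    funext j
    show sec e j (∑ i : Fin e, single ((i : ℕ) : ℤ) (1 : R) * qExpand R e (c i)) = c j
    rw [sec_sum]
    have : ∀ i ∈ (Finset.univ : Finset (Fin e)),
        sec e j (single ((i : ℕ) : ℤ) (1 : R) * qExpand R e (c i)) =
          if i = j then c i else 0 := by
      intro i _
      rw [sec_single_mul_qExpand e i.2 j.2]
      by_cases hij : i = j
      · subst hij; simp
      · rw [if_neg hij, if_neg (fun h => hij (Fin.ext h))]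
    rw [Finset.sum_congr rfl this, Finset.sum_ite_eq' Finset.univ j, if_pos (Finset.mem_univ j)]

/-- The basis `1, y, …, y ^ (e - 1)` of `R⸨y⸩` over `R⸨x⸩`. -/
noncomputable def powBasis : Module.Basis (Fin e) R⸨X⸩ (RamExt R e) :=
  Module.Basis.ofEquivFun (secEquiv e)

theorem powBasis_repr (g : RamExt R e) (j : Fin e) :
    (powBasis e).repr g j = sec e j ((RamExt.of e).symm g) := rfl

theorem powBasis_apply (j : Fin e) :
    (powBasis e (R := R)) j = RamExt.of e (single ((j : ℕ) : ℤ) (1 : R)) := by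
  rw [powBasis, Module.Basis.coe_ofEquivFun]
  show RamExt.of e (∑ i : Fin e, single ((i : ℕ) : ℤ) (1 : R) *
    qExpand R e ((Pi.single j (1 : R⸨X⸩) : Fin e → R⸨X⸩) i)) = _
  congr 1
  rw [Finset.sum_eq_single_of_mem j (Finset.mem_univ j)]
  · rw [Pi.single_eq_same, RingHom.map_one, mul_one]
  · intro i _ hij
    rw [Pi.single_eq_of_ne hij, RingHom.map_zero, mul_zero]

instance : Module.Free R⸨X⸩ (RamExt R e) := Module.Free.of_basis (powBasis e)

instance : Module.Finite R⸨X⸩ (RamExt R e) := Module.Finite.of_basis (powBasis e)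

/-- The algebraic trace of `R⸨y⸩` over `R⸨x⸩` (`x = y ^ e`) is `trE`. -/
theorem trace_eq_trE (g : RamExt R e) :
    Algebra.trace R⸨X⸩ (RamExt R e) g = trE e ((RamExt.of e).symm g) := by
  rw [Algebra.trace_eq_matrix_trace (powBasis e) g, Matrix.trace]
  simp only [Matrix.diag_apply, Algebra.leftMulMatrix_eq_repr_mul, powBasis_repr, powBasis_apply,
    map_mul, RingEquiv.symm_apply_apply]
  rw [Fin.sum_univ_eq_sum_range
    (fun j => sec e j ((RamExt.of e).symm g * single ((j : ℕ) : ℤ) (1 : R))) e]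
  exact sum_sec_mul_single e _

end Trace

end Fermat.Agent.Lib.Residue
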