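import Fermat.Agent.Lib.Residue.Ramified

set_option autoImplicit false

/-!
# The residue theorem on a covering of the projective line, read off at the ramified points

`F` is an extension of `RatFunc k`, the points of `S ∪ {∞}` of the line carry local expansions
`ε a`, `εinf`, and the points of `F` above them (indexed by `ι`) carry expansions `ιc c` in a
parameter `y` with `x = y ^ e c`.  Given the local trace formula, the residue theorem on the line
yields: the sum above all these points of the residues of `g dt` vanishes, for every `g ∈ F`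
whose trace has poles in `S ∪ {∞}` only.
-/

namespace Fermat.Agent.Lib.Residue

open HahnSeries LaurentSeries ModularCurve

variable {k : Type*} [Field k]

/-- The residue at one point `c` of the covering: the residue of `g dt` computed in the local
parameter `y`. -/
noncomputable def resAt {F : Type*} [Field F] [Algebra (RatFunc k) F]
    (ιc : F →+* k⸨X⸩) (g : F) : k :=
  res (ιc g * D (ιc (algebraMap (RatFunc k) F RatFunc.X)))

/-- Residues above one point of the line: if the expansion of the trace of `g` is the sum of the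
local traces, the residue of `Tr g dt` at the point is the sum of the residues of `g dt` above. -/
theorem res_trace_eq_sum {F : Type*} [Field F] [Algebra (RatFunc k) F]
    {ι : Type*} (s : Finset ι) (e : ι → ℕ) [∀ c, NeZero (e c)] (ιc : ι → F →+* k⸨X⸩)
    (ε : RatFunc k →+* k⸨X⸩)
    (hι : ∀ c ∈ s, ιc c (algebraMap (RatFunc k) F RatFunc.X) = qExpand k (e c) (ε RatFunc.X))
    (g : F) (T : RatFunc k)
    (htr : ε T = ∑ c ∈ s, trE (e c) (ιc c g)) :
    res (ε T * D (ε RatFunc.X)) = ∑ c ∈ s, resAt (ιc c) g := by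
  rw [htr, Finset.sum_mul, res_sum]
  refine Finset.sum_congr rfl fun c hc => ?_
  have := res_trE_mul_D (e c) (ιc c g) (1 : k⸨X⸩) (ε RatFunc.X)
  rw [mul_one, map_one, mul_one] at this
  rw [this, resAt, hι c hc]

section Theorem

variable (S : Finset k) (ε : k → RatFunc k →+* k⸨X⸩) (σ : k → k⸨X⸩)
  (hC : ∀ a ∈ S, ∀ c : k, ε a (RatFunc.C c) = HahnSeries.C c)
  (hσ : ∀ a ∈ S, IsParam (σ a))
  (hε : ∀ a ∈ S, ε a RatFunc.X = HahnSeries.C a + σ a)
  (εinf : RatFunc k →+* k⸨X⸩) (σinf : k⸨X⸩)
  (hCinf : ∀ c : k, εinf (RatFunc.C c) = HahnSeries.C c)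
  (hσinf : IsParam σinf) (hεinf : εinf RatFunc.X = σinf⁻¹)
  {F : Type*} [Field F] [Algebra (RatFunc k) F]
  {ι : Type*} (above : k → Finset ι) (aboveInf : Finset ι)
  (e : ι → ℕ) [∀ c, NeZero (e c)] (ιc : ι → F →+* k⸨X⸩)
  (hι : ∀ a ∈ S, ∀ c ∈ above a,
    ιc c (algebraMap (RatFunc k) F RatFunc.X) = qExpand k (e c) (ε a RatFunc.X))
  (hιinf : ∀ c ∈ aboveInf,
    ιc c (algebraMap (RatFunc k) F RatFunc.X) = qExpand k (e c) (εinf RatFunc.X))

include hC hσ hε hCinf hσinf hεinf hι hιinf

/-- **Residue theorem on the covering.**  `T` plays the role of the trace of `g`: it is a rational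
function with poles in `S ∪ {∞}` only, whose expansion at each point is the sum of the local
traces of the expansions of `g` above.  Then the residues of `g dt` at all points above
`S ∪ {∞}` sum to zero. -/
theorem sum_resAt_eq_zero (g : F) (f : Polynomial k) (n : k → ℕ)
    (htr : ∀ a ∈ S, ε a (algebraMap (Polynomial k) (RatFunc k) f *
        ∏ b ∈ S, (RatFunc.X - RatFunc.C b)⁻¹ ^ n b) = ∑ c ∈ above a, trE (e c) (ιc c g))
    (htrinf : εinf (algebraMap (Polynomial k) (RatFunc k) f *
        ∏ b ∈ S, (RatFunc.X - RatFunc.C b)⁻¹ ^ n b) = ∑ c ∈ aboveInf, trE (e c) (ιc c g)) :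
    ∑ a ∈ S, ∑ c ∈ above a, resAt (ιc c) g + ∑ c ∈ aboveInf, resAt (ιc c) g = 0 := by
  have h := totalRes_eq_zero S ε σ hC hσ hε εinf σinf hCinf hσinf hεinf f n
  rw [totalRes] at h
  rw [← h]
  congr 1
  · refine Finset.sum_congr rfl fun a ha => ?_
    exact (res_trace_eq_sum (above a) e ιc (ε a) (hι a ha) g _ (htr a ha)).symm
  · exact (res_trace_eq_sum aboveInf e ιc εinf hιinf g _ htrinf).symm

end Theorem

end Fermat.Agent.Lib.Residue
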