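import Fermat.Agent.Lib.Residue.Ramified

set_option autoImplicit false

/-!
# The discriminant of the power basis of `R⸨y⸩` over `R⸨x⸩`, `x = y ^ e`

The trace matrix of `1, y, …, y ^ (e - 1)` is `e * (1 ⊕ x * antidiagonal)`, so its determinant is
`± e ^ e * x ^ (e - 1)`.
-/

namespace Fermat.Agent.Lib.Residue

open HahnSeries LaurentSeries ModularCurve

variable {R : Type*} [CommRing R] (e : ℕ) [NeZero e]

theorem sec_zero_single (m : ℤ) (c : R) :
    sec e 0 (single m c : R⸨X⸩) =
      if (e : ℤ) ∣ m then single (m / (e : ℤ)) c else 0 := by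
  have he : (e : ℤ) ≠ 0 := by exact_mod_cast NeZero.ne e
  ext n
  rw [sec_coeff, Nat.cast_zero, add_zero]
  split_ifs with h
  · obtain ⟨d, rfl⟩ := h
    rw [Int.mul_ediv_cancel_left d he]
    by_cases hnd : n = d
    · subst hnd; simp
    · rw [coeff_single_of_ne hnd, coeff_single_of_ne]
      intro hh
      exact hnd (mul_left_cancel₀ he hh)
  · rw [coeff_zero, coeff_single_of_ne]
    intro hh
    exact h ⟨n, hh.symm⟩

/-- The trace matrix of the power basis. -/
theorem traceMatrix_powBasis (i j : Fin e) :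
    Algebra.traceMatrix R⸨X⸩ (powBasis e (R := R)) i j =
      if j = -i then (if i = 0 then (e : R⸨X⸩) else (e : R⸨X⸩) * single 1 1) else 0 := by
  have he : (0 : ℤ) < (e : ℤ) := by exact_mod_cast Nat.pos_of_ne_zero (NeZero.ne e)
  rw [Algebra.traceMatrix_apply, Algebra.traceForm_apply, trace_eq_trE, powBasis_apply,
    powBasis_apply, map_mul, RingEquiv.symm_apply_apply, RingEquiv.symm_apply_apply,
    single_mul_single, mul_one, trE, sec_zero_single]
  have hi := i.2
  have hj := j.2
  have hC : (HahnSeries.C (e : R) : R⸨X⸩) = (e : R⸨X⸩) := by simp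
  by_cases h0 : i = 0
  · subst h0
    simp only [Fin.val_zero, Nat.cast_zero, zero_add, neg_zero, if_true]
    by_cases hj0 : j = 0
    · subst hj0
      simp [hC]
    · rw [if_neg hj0, if_neg, mul_zero]
      rintro ⟨d, hd⟩
      apply hj0
      have hjpos : 0 < (j : ℕ) := Nat.pos_of_ne_zero fun h => hj0 (Fin.ext h)
      have : 0 < d := by
        by_contra hle
        rw [not_lt] at hle
        have : (e : ℤ) * d ≤ 0 := mul_nonpos_of_nonneg_of_nonpos he.le hle
        omega
      have : (e : ℤ) * 1 ≤ (e : ℤ) * d := mul_le_mul_of_nonneg_left (by omega) he.le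
      omega
  · rw [if_neg h0]
    have hipos : 0 < (i : ℕ) := Nat.pos_of_ne_zero fun h => h0 (Fin.ext h)
    have hneg : ((-i : Fin e) : ℕ) = e - i := by
      rw [Fin.val_neg', Nat.mod_eq_of_lt (by omega)]
    by_cases hji : j = -i
    · rw [if_pos hji]
      have hsum : ((i : ℕ) : ℤ) + ((j : ℕ) : ℤ) = (e : ℤ) := by
        rw [hji, hneg]
        omega
      rw [hsum, if_pos (dvd_refl _), Int.ediv_self he.ne', hC]
    · rw [if_neg hji, if_neg, mul_zero]
      rintro ⟨d, hd⟩
      apply hji
      apply Fin.ext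
      rw [hneg]
      have hd1 : 0 < d := by
        by_contra hle
        rw [not_lt] at hle
        have : (e : ℤ) * d ≤ 0 := mul_nonpos_of_nonneg_of_nonpos he.le hle
        omega
      have hd2 : d < 2 := by
        by_contra hge
        rw [not_lt] at hge
        have : (e : ℤ) * 2 ≤ (e : ℤ) * d := mul_le_mul_of_nonneg_left hge he.le
        omega
      have hd3 : d = 1 := by omega
      rw [hd3, mul_one] at hd
      omega

/-- The discriminant of the power basis `1, y, …, y ^ (e - 1)` of `R⸨y⸩` over `R⸨x⸩`. -/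
theorem discr_powBasis :
    Algebra.discr R⸨X⸩ (powBasis e (R := R)) =
      ((Equiv.Perm.sign (Equiv.neg (Fin e)) : ℤ) : R⸨X⸩) *
        ((e : R⸨X⸩) ^ e * (single 1 1 : R⸨X⸩) ^ (e - 1)) := by
  classical
  rw [Algebra.discr_def]
  set d : Fin e → R⸨X⸩ := fun i => if i = 0 then (e : R⸨X⸩) else (e : R⸨X⸩) * single 1 1 with hd
  have hM : Algebra.traceMatrix R⸨X⸩ (powBasis e (R := R)) =
      Matrix.diagonal d * (Equiv.toPEquiv (Equiv.neg (Fin e))).toMatrix := by
    ext i j
    rw [traceMatrix_powBasis, Matrix.diagonal_mul, PEquiv.toMatrix_apply]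
    simp only [Equiv.toPEquiv_apply, Equiv.neg_apply, Option.mem_def, Option.some.injEq]
    by_cases hji : j = -i
    · rw [if_pos hji, if_pos hji.symm, mul_one]
    · rw [if_neg hji, if_neg (fun h => hji h.symm), mul_zero]
  rw [hM, Matrix.det_mul, Matrix.det_diagonal, Matrix.det_permutation, mul_comm]
  congr 1
  -- the product of the diagonal entries
  have h0 : (0 : Fin e) ∈ (Finset.univ : Finset (Fin e)) := Finset.mem_univ _
  rw [← Finset.mul_prod_erase Finset.univ d h0]
  have h1 : d 0 = (e : R⸨X⸩) := by simp [hd]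
  have h2 : ∏ i ∈ Finset.univ.erase (0 : Fin e), d i =
      ∏ _i ∈ Finset.univ.erase (0 : Fin e), ((e : R⸨X⸩) * single 1 1) := by
    refine Finset.prod_congr rfl fun i hi => ?_
    simp only [hd]
    rw [if_neg (Finset.ne_of_mem_erase hi)]
  rw [h1, h2, Finset.prod_const, Finset.card_erase_of_mem h0, Finset.card_univ, Fintype.card_fin,
    mul_pow]
  have he : (e : R⸨X⸩) ^ e = (e : R⸨X⸩) ^ (e - 1) * (e : R⸨X⸩) := by
    rw [← pow_succ, Nat.sub_add_cancel (Nat.pos_of_ne_zero (NeZero.ne e))]
  rw [he]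
  ring

end Fermat.Agent.Lib.Residue
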