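import Fermat.Agent.Lib.Residue.Param

set_option autoImplicit false

/-!
# The residue theorem on the projective line, with respect to arbitrary local parameters

`k` is a field, `S` a finite set of points of the affine line.  For every `a ∈ S` we are given a
ring homomorphism `ε a : RatFunc k → k⸨X⸩` which is the identity on constants and sends the
coordinate `t` to `a + σ a` for a local parameter `σ a`; at infinity we are given `εinf` with
`εinf t = σinf⁻¹`.  For every rational function `T` with poles in `S ∪ {∞}` only, the sum of the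
residues of `T dt`, computed in these parameters, vanishes.
-/

namespace Fermat.Agent.Lib.Residue

open HahnSeries LaurentSeries

variable {k : Type*} [Field k]

/-! ### Laurent series which are power series -/

/-- The Laurent series `f` is a power series. -/
def IsPS (f : k⸨X⸩) : Prop := ∃ p : PowerSeries k, (p : k⸨X⸩) = f

theorem IsPS.coe (p : PowerSeries k) : IsPS (p : k⸨X⸩) := ⟨p, rfl⟩

theorem IsPS.zero : IsPS (0 : k⸨X⸩) := ⟨0, PowerSeries.coe_zero⟩

theorem IsPS.one : IsPS (1 : k⸨X⸩) := ⟨1, PowerSeries.coe_one⟩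

theorem IsPS.C (c : k) : IsPS (HahnSeries.C c : k⸨X⸩) := ⟨PowerSeries.C c, PowerSeries.coe_C c⟩

theorem IsPS.add {f g : k⸨X⸩} (hf : IsPS f) (hg : IsPS g) : IsPS (f + g) := by
  obtain ⟨p, rfl⟩ := hf
  obtain ⟨q, rfl⟩ := hg
  exact ⟨p + q, PowerSeries.coe_add p q⟩

theorem IsPS.neg {f : k⸨X⸩} (hf : IsPS f) : IsPS (-f) := by
  obtain ⟨p, rfl⟩ := hf
  exact ⟨-p, PowerSeries.coe_neg p⟩

theorem IsPS.sub {f g : k⸨X⸩} (hf : IsPS f) (hg : IsPS g) : IsPS (f - g) := by
  obtain ⟨p, rfl⟩ := hf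
  obtain ⟨q, rfl⟩ := hg
  exact ⟨p - q, PowerSeries.coe_sub p q⟩

theorem IsPS.mul {f g : k⸨X⸩} (hf : IsPS f) (hg : IsPS g) : IsPS (f * g) := by
  obtain ⟨p, rfl⟩ := hf
  obtain ⟨q, rfl⟩ := hg
  exact ⟨p * q, PowerSeries.coe_mul p q⟩

theorem IsPS.pow {f : k⸨X⸩} (hf : IsPS f) (n : ℕ) : IsPS (f ^ n) := by
  obtain ⟨p, rfl⟩ := hf
  exact ⟨p ^ n, PowerSeries.coe_pow p n⟩

theorem IsPS.D {f : k⸨X⸩} (hf : IsPS f) : IsPS (D f) := by
  obtain ⟨p, rfl⟩ := hf
  exact ⟨_, (D_coe p).symm⟩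

theorem IsPS.res_eq_zero {f : k⸨X⸩} (hf : IsPS f) : res f = 0 := by
  obtain ⟨p, rfl⟩ := hf
  exact res_coe p

theorem IsPS.sum {ι : Type*} (s : Finset ι) (f : ι → k⸨X⸩) (h : ∀ i ∈ s, IsPS (f i)) :
    IsPS (∑ i ∈ s, f i) := by
  classical
  induction s using Finset.induction_on with
  | empty => simpa using IsPS.zero
  | insert a s ha ih =>
    rw [Finset.sum_insert ha]
    exact (h a (Finset.mem_insert_self a s)).add
      (ih fun i hi => h i (Finset.mem_insert_of_mem hi))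

/-- A power series with nonzero constant coefficient has a power series inverse. -/
theorem IsPS.inv_coe {p : PowerSeries k} (hp : PowerSeries.constantCoeff p ≠ 0) :
    IsPS ((p : k⸨X⸩)⁻¹) := by
  refine ⟨p⁻¹, ?_⟩
  symm
  apply inv_eq_of_mul_eq_one_right
  rw [← PowerSeries.coe_mul, PowerSeries.mul_inv_cancel p hp, PowerSeries.coe_one]

theorem IsParam.isPS {σ : k⸨X⸩} (h : IsParam σ) : IsPS σ := by
  obtain ⟨p, -, rfl⟩ := h.exists_coe
  exact IsPS.coe p

/-- `c + σ` is invertible among power series when `c ≠ 0`. -/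
theorem IsParam.isPS_inv_C_add {σ : k⸨X⸩} (h : IsParam σ) {c : k} (hc : c ≠ 0) :
    IsPS ((HahnSeries.C c + σ)⁻¹) := by
  obtain ⟨p, hp, rfl⟩ := h.exists_coe
  rw [← PowerSeries.coe_C, ← PowerSeries.coe_add]
  apply IsPS.inv_coe
  rw [map_add, hp, add_zero, PowerSeries.constantCoeff_C]
  exact hc

/-! ### Derivative of an inverse -/

theorem D_inv {f : k⸨X⸩} (hf : f ≠ 0) : D f⁻¹ = -(f⁻¹ ^ 2 * D f) := by
  have h0 : D (f * f⁻¹) = 0 := by rw [mul_inv_cancel₀ hf, D_one]
  rw [D_mul] at h0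
  have h1 : f⁻¹ * (D f * f⁻¹ + f * D f⁻¹) = 0 := by rw [h0, mul_zero]
  have h2 : f⁻¹ * (D f * f⁻¹ + f * D f⁻¹) = f⁻¹ ^ 2 * D f + (f⁻¹ * f) * D f⁻¹ := by ring
  rw [h2, inv_mul_cancel₀ hf, one_mul] at h1
  linear_combination h1

/-! ### Evaluation of polynomials -/

/-- A ring homomorphism `RatFunc k → k⸨X⸩` which is the identity on constants evaluates
polynomials. -/
theorem map_algebraMap_eq_sum (ε : RatFunc k →+* k⸨X⸩)
    (hC : ∀ c : k, ε (RatFunc.C c) = HahnSeries.C c) (P : Polynomial k) :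
    ε (algebraMap (Polynomial k) (RatFunc k) P) =
      ∑ i ∈ Finset.range (P.natDegree + 1), HahnSeries.C (P.coeff i) * ε RatFunc.X ^ i := by
  conv_lhs => rw [P.as_sum_range_C_mul_X_pow]
  rw [map_sum, map_sum]
  refine Finset.sum_congr rfl fun i _ => ?_
  rw [map_mul, map_pow, RatFunc.algebraMap_C, RatFunc.algebraMap_X, map_mul, map_pow, hC]

/-! ### Local contributions -/

section Local

variable (ε : RatFunc k →+* k⸨X⸩) (hC : ∀ c : k, ε (RatFunc.C c) = HahnSeries.C c)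

include hC

/-- At a finite point, polynomials have no residue. -/
theorem res_polynomial_finite {b : k} {σ : k⸨X⸩} (hσ : IsParam σ)
    (hX : ε RatFunc.X = HahnSeries.C b + σ) (P : Polynomial k) :
    res (ε (algebraMap (Polynomial k) (RatFunc k) P) * D (ε RatFunc.X)) = 0 := by
  have hXps : IsPS (ε RatFunc.X) := by
    rw [hX]; exact (IsPS.C b).add hσ.isPS
  apply IsPS.res_eq_zero
  rw [map_algebraMap_eq_sum ε hC]
  exact (IsPS.sum _ _ fun i _ => (IsPS.C _).mul (hXps.pow i)).mul hXps.D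

/-- At infinity, polynomials have no residue. -/
theorem res_polynomial_infinity {σ : k⸨X⸩} (hσ : IsParam σ)
    (hX : ε RatFunc.X = σ⁻¹) (P : Polynomial k) :
    res (ε (algebraMap (Polynomial k) (RatFunc k) P) * D (ε RatFunc.X)) = 0 := by
  rw [map_algebraMap_eq_sum ε hC, hX, D_inv hσ.ne_zero, Finset.sum_mul, res_sum]
  refine Finset.sum_eq_zero fun i _ => ?_
  have : HahnSeries.C (P.coeff i) * σ⁻¹ ^ i * -(σ⁻¹ ^ 2 * D σ) =
      HahnSeries.C (-(P.coeff i)) * (σ ^ (-((i + 2 : ℕ) : ℤ)) * D σ) := by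
    rw [zpow_neg, zpow_natCast, ← inv_pow, _root_.pow_add, map_neg]
    ring
  rw [this, res_C_mul, res_zpow_mul_D hσ, if_neg, mul_zero]
  push_cast
  omega

/-- The image of `(t - a)⁻¹`. -/
theorem map_inv_X_sub_C (a : k) :
    ε ((RatFunc.X - RatFunc.C a)⁻¹) = (ε RatFunc.X - HahnSeries.C a)⁻¹ := by
  rw [map_inv₀, map_sub, hC]

/-- The principal part `(t - a)^{-(j+1)}` at its own point `a`. -/
theorem res_pole_self {a : k} {σ : k⸨X⸩} (hσ : IsParam σ)
    (hX : ε RatFunc.X = HahnSeries.C a + σ) (j : ℕ) :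
    res (ε ((RatFunc.X - RatFunc.C a)⁻¹ ^ (j + 1)) * D (ε RatFunc.X)) =
      if j = 0 then 1 else 0 := by
  rw [map_pow, map_inv_X_sub_C ε hC, hX, add_sub_cancel_left, D_add, D_C, zero_add]
  have : σ⁻¹ ^ (j + 1) = σ ^ (-((j + 1 : ℕ) : ℤ)) := by
    rw [zpow_neg, zpow_natCast, inv_pow]
  rw [this, res_zpow_mul_D hσ]
  rcases Nat.eq_zero_or_pos j with h | h
  · subst h; simp
  · rw [if_neg, if_neg (by omega)]
    push_cast
    omega

/-- The principal part `(t - a)^{-(j+1)}` at another finite point `b ≠ a`. -/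
theorem res_pole_other {a b : k} (hab : b ≠ a) {σ : k⸨X⸩} (hσ : IsParam σ)
    (hX : ε RatFunc.X = HahnSeries.C b + σ) (j : ℕ) :
    res (ε ((RatFunc.X - RatFunc.C a)⁻¹ ^ (j + 1)) * D (ε RatFunc.X)) = 0 := by
  apply IsPS.res_eq_zero
  rw [map_pow, map_inv_X_sub_C ε hC, hX]
  have h1 : HahnSeries.C b + σ - HahnSeries.C a = HahnSeries.C (b - a) + σ := by
    rw [map_sub]; ring
  rw [h1]
  exact ((hσ.isPS_inv_C_add (sub_ne_zero.mpr hab)).pow _).mul ((IsPS.C b).add hσ.isPS).D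

/-- The principal part `(t - a)^{-(j+1)}` at infinity. -/
theorem res_pole_infinity (a : k) {σ : k⸨X⸩} (hσ : IsParam σ)
    (hX : ε RatFunc.X = σ⁻¹) (j : ℕ) :
    res (ε ((RatFunc.X - RatFunc.C a)⁻¹ ^ (j + 1)) * D (ε RatFunc.X)) =
      if j = 0 then -1 else 0 := by
  have hσ0 := hσ.ne_zero
  obtain ⟨p, hp, hσp⟩ := hσ.exists_coe
  -- `v = (1 - a σ)⁻¹` as a power series
  set q : PowerSeries k := 1 - PowerSeries.C a * p with hq
  have hq0 : PowerSeries.constantCoeff q ≠ 0 := by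
    rw [hq, map_sub, map_mul, hp, mul_zero, sub_zero, map_one]
    exact one_ne_zero
  have hqv : q * q⁻¹ = 1 := PowerSeries.mul_inv_cancel q hq0
  have hqσ : (q : k⸨X⸩) = 1 - HahnSeries.C a * σ := by
    rw [hq, PowerSeries.coe_sub, PowerSeries.coe_one, PowerSeries.coe_mul, PowerSeries.coe_C, hσp]
  have hqv' : (1 - HahnSeries.C a * σ) * ((q⁻¹ : PowerSeries k) : k⸨X⸩) = 1 := by
    rw [← hqσ, ← PowerSeries.coe_mul, hqv, PowerSeries.coe_one]
  set v : k⸨X⸩ := ((q⁻¹ : PowerSeries k) : k⸨X⸩) with hv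
  have hvps : IsPS v := IsPS.coe _
  -- the image of `(t - a)⁻¹` is `σ v`
  have hinv : (σ⁻¹ - HahnSeries.C a)⁻¹ = σ * v := by
    apply inv_eq_of_mul_eq_one_right
    have : (σ⁻¹ - HahnSeries.C a) * (σ * v) = (σ⁻¹ * σ) * v - HahnSeries.C a * σ * v := by
      ring
    rw [this, inv_mul_cancel₀ hσ0, one_mul]
    linear_combination hqv'
  rw [map_pow, map_inv_X_sub_C ε hC, hX, hinv, D_inv hσ0]
  rcases Nat.eq_zero_or_pos j with h | h
  · subst h
    rw [if_pos rfl, zero_add, pow_one]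
    -- `v = 1 + a σ v`
    have hv1 : v = 1 + HahnSeries.C a * σ * v := by
      linear_combination hqv'
    have : σ * v * -(σ⁻¹ ^ 2 * D σ) =
        -(σ ^ (-1 : ℤ) * D σ) - HahnSeries.C a * (v * D σ) := by
      have e : σ * v * -(σ⁻¹ ^ 2 * D σ) = -((σ * σ⁻¹) * σ⁻¹ * v * D σ) := by ring
      rw [e, mul_inv_cancel₀ hσ0, one_mul, zpow_neg_one]
      have e2 : σ⁻¹ * v = σ⁻¹ + HahnSeries.C a * v := by
        conv_lhs => rw [hv1]
        have : σ⁻¹ * (1 + HahnSeries.C a * σ * v) =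
            σ⁻¹ + HahnSeries.C a * (σ⁻¹ * σ) * v := by ring
        rw [this, inv_mul_cancel₀ hσ0, mul_one]
      rw [e2]
      ring
    rw [this, res_sub, res_neg, res_zpow_mul_D hσ, if_pos rfl, res_C_mul,
      (hvps.mul hσ.isPS.D).res_eq_zero, mul_zero, sub_zero]
  · rw [if_neg (by omega)]
    apply IsPS.res_eq_zero
    obtain ⟨i, rfl⟩ : ∃ i, j = i + 1 := ⟨j - 1, by omega⟩
    have : (σ * v) ^ (i + 1 + 1) * -(σ⁻¹ ^ 2 * D σ) =
        -((σ * σ⁻¹) ^ 2 * σ ^ i * v ^ (i + 1 + 1) * D σ) := by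
      ring
    rw [this, mul_inv_cancel₀ hσ0, one_pow, one_mul]
    exact (((hσ.isPS.pow i).mul (hvps.pow _)).mul hσ.isPS.D).neg

end Local

/-! ### The residue theorem -/

/-- The sum of the residues of `T dt` over the points of `S` and infinity. -/
noncomputable def totalRes (S : Finset k) (ε : k → RatFunc k →+* k⸨X⸩)
    (εinf : RatFunc k →+* k⸨X⸩) (T : RatFunc k) : k :=
  ∑ a ∈ S, res (ε a T * D (ε a RatFunc.X)) + res (εinf T * D (εinf RatFunc.X))

theorem totalRes_add (S : Finset k) (ε : k → RatFunc k →+* k⸨X⸩)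
    (εinf : RatFunc k →+* k⸨X⸩) (T₁ T₂ : RatFunc k) :
    totalRes S ε εinf (T₁ + T₂) = totalRes S ε εinf T₁ + totalRes S ε εinf T₂ := by
  simp only [totalRes, map_add, add_mul, res_add, Finset.sum_add_distrib]
  ring

theorem totalRes_zero (S : Finset k) (ε : k → RatFunc k →+* k⸨X⸩)
    (εinf : RatFunc k →+* k⸨X⸩) : totalRes S ε εinf 0 = 0 := by
  simp [totalRes, res_zero]

theorem totalRes_sum {ι : Type*} (S : Finset k) (ε : k → RatFunc k →+* k⸨X⸩)
    (εinf : RatFunc k →+* k⸨X⸩) (s : Finset ι) (T : ι → RatFunc k) :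
    totalRes S ε εinf (∑ i ∈ s, T i) = ∑ i ∈ s, totalRes S ε εinf (T i) := by
  classical
  induction s using Finset.induction_on with
  | empty => simp [totalRes_zero]
  | insert a s ha ih => rw [Finset.sum_insert ha, Finset.sum_insert ha, totalRes_add, ih]

theorem totalRes_C_mul (S : Finset k) (ε : k → RatFunc k →+* k⸨X⸩)
    (εinf : RatFunc k →+* k⸨X⸩) (hC : ∀ a ∈ S, ∀ c : k, ε a (RatFunc.C c) = HahnSeries.C c)
    (hCinf : ∀ c : k, εinf (RatFunc.C c) = HahnSeries.C c) (c : k) (T : RatFunc k) :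
    totalRes S ε εinf (RatFunc.C c * T) = c * totalRes S ε εinf T := by
  simp only [totalRes, map_mul, hCinf, mul_add, Finset.mul_sum]
  congr 1
  · refine Finset.sum_congr rfl fun a ha => ?_
    rw [hC a ha, mul_assoc, res_C_mul]
  · rw [mul_assoc, res_C_mul]

section Theorem

variable (S : Finset k) (ε : k → RatFunc k →+* k⸨X⸩) (σ : k → k⸨X⸩)
  (hC : ∀ a ∈ S, ∀ c : k, ε a (RatFunc.C c) = HahnSeries.C c)
  (hσ : ∀ a ∈ S, IsParam (σ a))
  (hε : ∀ a ∈ S, ε a RatFunc.X = HahnSeries.C a + σ a)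
  (εinf : RatFunc k →+* k⸨X⸩) (σinf : k⸨X⸩)
  (hCinf : ∀ c : k, εinf (RatFunc.C c) = HahnSeries.C c)
  (hσinf : IsParam σinf) (hεinf : εinf RatFunc.X = σinf⁻¹)

include hC hσ hε hCinf hσinf hεinf

theorem totalRes_polynomial (P : Polynomial k) :
    totalRes S ε εinf (algebraMap (Polynomial k) (RatFunc k) P) = 0 := by
  rw [totalRes, res_polynomial_infinity εinf hCinf hσinf hεinf, add_zero]
  exact Finset.sum_eq_zero fun a ha =>
    res_polynomial_finite (ε a) (hC a ha) (hσ a ha) (hε a ha) P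

theorem totalRes_pole {a : k} (ha : a ∈ S) (j : ℕ) :
    totalRes S ε εinf ((RatFunc.X - RatFunc.C a)⁻¹ ^ (j + 1)) = 0 := by
  rw [totalRes, res_pole_infinity εinf hCinf a hσinf hεinf,
    Finset.sum_eq_single_of_mem a ha fun b hb hba =>
      res_pole_other (ε b) (hC b hb) hba (hσ b hb) (hε b hb) j,
    res_pole_self (ε a) (hC a ha) (hσ a ha) (hε a ha)]
  split_ifs <;> simp

/-- **Residue theorem on the projective line**, with respect to arbitrary local parameters:
for a rational function `T = f / ∏_{a ∈ S} (t - a) ^ n a`, the sum of the residues of `T dt`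
at the points of `S` and at infinity vanishes. -/
theorem totalRes_eq_zero (f : Polynomial k) (n : k → ℕ) :
    totalRes S ε εinf (algebraMap (Polynomial k) (RatFunc k) f *
      ∏ a ∈ S, (RatFunc.X - RatFunc.C a)⁻¹ ^ n a) = 0 := by
  classical
  have hg : ∀ a ∈ S, (Polynomial.X - Polynomial.C a).Monic := fun a _ =>
    Polynomial.monic_X_sub_C a
  have hgg : Set.Pairwise (S : Set k) fun a b =>
      IsCoprime (Polynomial.X - Polynomial.C a) (Polynomial.X - Polynomial.C b) := fun a _ b _ hab =>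
    Polynomial.isCoprime_X_sub_C_of_isUnit_sub (sub_ne_zero.mpr hab).isUnit
  have hgi : ∀ a ∈ S, (RatFunc.X - RatFunc.C a)⁻¹ *
      algebraMap (Polynomial k) (RatFunc k) (Polynomial.X - Polynomial.C a) = 1 := by
    intro a _
    rw [map_sub, RatFunc.algebraMap_X, RatFunc.algebraMap_C]
    apply inv_mul_cancel₀
    intro h
    have := congrArg RatFunc.num (sub_eq_zero.mp h)
    rw [RatFunc.num_X, RatFunc.num_C] at this
    exact Polynomial.X_ne_C a this
  obtain ⟨q, r, hr, hf⟩ :=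
    Polynomial.mul_prod_pow_inverse_eq_quo_add_sum_rem_mul_pow_inverse (K := RatFunc k)
      f hg hgg n hgi
  rw [hf, totalRes_add, totalRes_polynomial S ε σ hC hσ hε εinf σinf hCinf hσinf hεinf, zero_add,
    totalRes_sum]
  refine Finset.sum_eq_zero fun a ha => ?_
  rw [totalRes_sum]
  refine Finset.sum_eq_zero fun j _ => ?_
  have hdeg : (r a j).degree < 1 := by
    have := hr a ha j
    rwa [Polynomial.degree_X_sub_C] at this
  have hconst : r a j = Polynomial.C ((r a j).coeff 0) :=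
    Polynomial.eq_C_of_degree_le_zero (Nat.WithBot.lt_one_iff_le_zero.mp hdeg)
  rw [hconst, RatFunc.algebraMap_C,
    totalRes_C_mul S ε εinf hC hCinf,
    totalRes_pole S ε σ hC hσ hε εinf σinf hCinf hσinf hεinf ha, mul_zero]

end Theorem

end Fermat.Agent.Lib.Residue
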