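import Fermat.Agent.Lib.Residue.Basic

set_option autoImplicit false

/-!
# Invariance of the residue under change of parameter

For a local parameter `σ = a X u` (`a ≠ 0`, `u` a power series with constant coefficient `1`)
of `k⸨X⸩`, `res (σ ^ n * D σ) = if n = -1 then 1 else 0` for every integer `n`, in every
characteristic.
-/

namespace Fermat.Agent.Lib.Residue

open HahnSeries LaurentSeries

section PowerSeriesIdentity

variable {R : Type*} [CommRing R]

local notation "dX" => PowerSeries.derivative

/-- If `u * w = 1` then `w' = - u' * w ^ 2`. -/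
theorem derivative_of_mul_eq_one {u w : PowerSeries R} (h : u * w = 1) :
    dX R w = -(dX R u) * w ^ 2 := by
  have h0 : dX R (u * w) = 0 := by rw [h]; exact PowerSeries.derivative_one
  rw [Derivation.leibniz, smul_eq_mul, smul_eq_mul] at h0
  have h1 : w * (u * dX R w + w * dX R u) = 0 := by rw [h0, mul_zero]
  have h2 : w * (u * dX R w + w * dX R u) = (u * w) * dX R w + dX R u * w ^ 2 := by ring
  rw [h2, h, one_mul] at h1
  linear_combination h1

/-- The key identity, up to the factor `r`. -/
theorem natCast_mul_coeff_eq_zero {u w : PowerSeries R} (h : u * w = 1) (r : ℕ) :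
    (r : R) * PowerSeries.coeff r (w ^ (r + 1) * (u + PowerSeries.X * dX R u)) = 0 := by
  rcases Nat.eq_zero_or_pos r with hr | hr
  · subst hr; simp
  obtain ⟨s, rfl⟩ : ∃ s, r = s + 1 := ⟨r - 1, by omega⟩
  have hw : dX R (w ^ (s + 1)) = ((s + 1 : ℕ) : PowerSeries R) * w ^ s * dX R w := by
    rw [PowerSeries.derivative_pow]
    simp
  have key : ((s + 1 : ℕ) : PowerSeries R) * (w ^ (s + 1 + 1) * (u + PowerSeries.X * dX R u)) =
      ((s + 1 : ℕ) : PowerSeries R) * w ^ (s + 1) - PowerSeries.X * dX R (w ^ (s + 1)) := by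
    rw [hw, derivative_of_mul_eq_one h]
    have : w ^ (s + 1 + 1) * (u + PowerSeries.X * dX R u) =
        (u * w) * w ^ (s + 1) + PowerSeries.X * w ^ (s + 2) * dX R u := by ring
    rw [this, h]
    ring
  have hc : PowerSeries.coeff (s + 1)
      (((s + 1 : ℕ) : PowerSeries R) * (w ^ (s + 1 + 1) * (u + PowerSeries.X * dX R u))) =
      ((s + 1 : ℕ) : R) *
        PowerSeries.coeff (s + 1) (w ^ (s + 1 + 1) * (u + PowerSeries.X * dX R u)) := by
    rw [show ((s + 1 : ℕ) : PowerSeries R) = PowerSeries.C ((s + 1 : ℕ) : R) by simp,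
      PowerSeries.coeff_C_mul]
  rw [← hc, key, map_sub,
    show ((s + 1 : ℕ) : PowerSeries R) = PowerSeries.C ((s + 1 : ℕ) : R) by simp,
    PowerSeries.coeff_C_mul, PowerSeries.coeff_succ_X_mul, PowerSeries.coeff_derivative]
  push_cast
  ring

/-- `PowerSeries.map` commutes with the derivative. -/
theorem map_derivative {S : Type*} [CommRing S] (φ : R →+* S) (p : PowerSeries R) :
    PowerSeries.map φ (dX R p) = dX S (PowerSeries.map φ p) := by
  ext n
  simp [PowerSeries.coeff_derivative]

/-- The universal power series with constant coefficient `1`. -/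
noncomputable def univU : PowerSeries (MvPolynomial ℕ ℤ) :=
  PowerSeries.mk fun n => if n = 0 then 1 else MvPolynomial.X n

theorem constantCoeff_univU : PowerSeries.constantCoeff univU = 1 := by
  rw [← PowerSeries.coeff_zero_eq_constantCoeff_apply, univU, PowerSeries.coeff_mk, if_pos rfl]

/-- The inverse of the universal power series. -/
noncomputable def univW : PowerSeries (MvPolynomial ℕ ℤ) :=
  PowerSeries.invOfUnit univU 1

theorem univU_mul_univW : univU * univW = 1 :=
  PowerSeries.mul_invOfUnit univU 1 (by rw [constantCoeff_univU]; rfl)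

theorem univ_coeff_eq_zero (r : ℕ) (hr : 0 < r) :
    PowerSeries.coeff r (univW ^ (r + 1) *
      (univU + PowerSeries.X * dX (MvPolynomial ℕ ℤ) univU)) = 0 := by
  have h := natCast_mul_coeff_eq_zero univU_mul_univW r
  rcases mul_eq_zero.mp h with h | h
  · exact absurd (Nat.cast_eq_zero.mp h) hr.ne'
  · exact h

/-- The key identity in any commutative ring: the coefficient of `X ^ r` in
`w ^ (r + 1) * (u + X u')` vanishes when `u w = 1`, `u(0) = 1` and `r > 0`. -/
theorem coeff_eq_zero_of_mul_eq_one {u w : PowerSeries R} (h : u * w = 1)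
    (hu : PowerSeries.constantCoeff u = 1) (r : ℕ) (hr : 0 < r) :
    PowerSeries.coeff r (w ^ (r + 1) * (u + PowerSeries.X * dX R u)) = 0 := by
  let φ : MvPolynomial ℕ ℤ →+* R :=
    MvPolynomial.eval₂Hom (Int.castRingHom R) fun n => PowerSeries.coeff n u
  have hU : PowerSeries.map φ univU = u := by
    ext n
    rw [PowerSeries.coeff_map, univU, PowerSeries.coeff_mk]
    split_ifs with hn
    · subst hn
      rw [map_one, PowerSeries.coeff_zero_eq_constantCoeff_apply, hu]
    · simp [φ]
  have hW : PowerSeries.map φ univW = w := by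
    have h1 : u * PowerSeries.map φ univW = 1 := by
      rw [← hU, ← map_mul, univU_mul_univW, map_one]
    calc PowerSeries.map φ univW = (u * w) * PowerSeries.map φ univW := by rw [h, one_mul]
      _ = w * (u * PowerSeries.map φ univW) := by ring
      _ = w := by rw [h1, mul_one]
  have e : PowerSeries.map φ (univW ^ (r + 1) *
      (univU + PowerSeries.X * dX (MvPolynomial ℕ ℤ) univU)) =
      w ^ (r + 1) * (u + PowerSeries.X * dX R u) := by
    rw [RingHom.map_mul, RingHom.map_pow, RingHom.map_add, RingHom.map_mul, map_derivative,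
      hU, hW, PowerSeries.map_X]
  rw [← e, PowerSeries.coeff_map, univ_coeff_eq_zero r hr, map_zero]

end PowerSeriesIdentity

section Field

variable {k : Type*} [Field k]

/-- `σ` is a local parameter of `k⸨X⸩`: `σ = a X u` with `a ≠ 0` and `u(0) = 1`. -/
def IsParam (σ : k⸨X⸩) : Prop :=
  ∃ (a : k) (u : PowerSeries k), a ≠ 0 ∧ PowerSeries.constantCoeff u = 1 ∧
    σ = single 1 a * (u : k⸨X⸩)

theorem isParam_single_one : IsParam (single 1 (1 : k) : k⸨X⸩) :=
  ⟨1, 1, one_ne_zero, by simp, by simp⟩

theorem IsParam.ne_zero {σ : k⸨X⸩} (h : IsParam σ) : σ ≠ 0 := by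
  obtain ⟨a, u, ha, hu, rfl⟩ := h
  intro h0
  have := congrArg (fun f : k⸨X⸩ => f.coeff 1) h0
  simp only [coeff_single_mul', sub_self, coeff_zero] at this
  rw [show (0 : ℤ) = ((0 : ℕ) : ℤ) by rfl, coeff_coe_powerSeries,
    PowerSeries.coeff_zero_eq_constantCoeff_apply, hu, mul_one] at this
  exact ha this

/-- A local parameter is (the image of) a power series. -/
theorem IsParam.exists_coe {σ : k⸨X⸩} (h : IsParam σ) : ∃ p : PowerSeries k,
    PowerSeries.constantCoeff p = 0 ∧ σ = (p : k⸨X⸩) := by
  obtain ⟨a, u, -, -, rfl⟩ := h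
  refine ⟨PowerSeries.C a * PowerSeries.X * u, by simp, ?_⟩
  rw [PowerSeries.coe_mul, PowerSeries.coe_mul, PowerSeries.coe_C, PowerSeries.coe_X,
    HahnSeries.C_apply, single_mul_single, zero_add, mul_one]

/-- Invariance of the residue: `res (σ ^ n dσ) = δ_{n, -1}`. -/
theorem res_zpow_mul_D {σ : k⸨X⸩} (h : IsParam σ) (n : ℤ) :
    res (σ ^ n * D σ) = if n = -1 then 1 else 0 := by
  rcases le_or_gt 0 n with hn | hn
  · -- nonnegative exponent: everything is a power series
    obtain ⟨m, rfl⟩ := Int.eq_ofNat_of_zero_le hn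
    obtain ⟨p, -, rfl⟩ := h.exists_coe
    rw [if_neg (by omega), zpow_natCast, D_coe, ← PowerSeries.coe_pow, ← PowerSeries.coe_mul,
      res_coe]
  · obtain ⟨a, u, ha, hu, rfl⟩ := h
    obtain ⟨m, rfl⟩ : ∃ m : ℕ, n = -((m + 1 : ℕ) : ℤ) := ⟨(-n - 1).toNat, by omega⟩
    set w : PowerSeries k := PowerSeries.invOfUnit u 1 with hw
    have huw : u * w = 1 := PowerSeries.mul_invOfUnit u 1 (by rw [hu]; rfl)
    have huw' : (u : k⸨X⸩) * (w : k⸨X⸩) = 1 := by
      rw [← PowerSeries.coe_mul, huw, PowerSeries.coe_one]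
    -- the inverse of `σ`
    have hinv : (single 1 a * (u : k⸨X⸩))⁻¹ = single (-1) a⁻¹ * (w : k⸨X⸩) := by
      apply inv_eq_of_mul_eq_one_right
      rw [mul_mul_mul_comm, single_mul_single, huw', mul_one, mul_inv_cancel₀ ha]
      simp
    -- the derivative of `σ`
    have hD : D (single 1 a * (u : k⸨X⸩)) =
        HahnSeries.C a * ((u + PowerSeries.X * PowerSeries.derivative k u : PowerSeries k) :
          k⸨X⸩) := by
      rw [D_single_mul, D_coe, PowerSeries.coe_add, PowerSeries.coe_mul, PowerSeries.coe_X,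
        HahnSeries.C_apply]
      have e1 : (single (1 - 1) (((1 : ℤ) : k) * a) : k⸨X⸩) = single 0 a := by simp
      have e2 : (single 1 a : k⸨X⸩) = single 0 a * single 1 1 := by
        rw [single_mul_single, zero_add, mul_one]
      rw [e1, e2]
      ring
    have hpow : (single 1 a * (u : k⸨X⸩)) ^ (-((m + 1 : ℕ) : ℤ)) =
        HahnSeries.C (a⁻¹ ^ (m + 1)) * (single (-((m + 1 : ℕ) : ℤ)) (1 : k) *
          ((w ^ (m + 1) : PowerSeries k) : k⸨X⸩)) := by
      rw [zpow_neg, zpow_natCast, ← inv_pow, hinv, mul_pow, single_pow, PowerSeries.coe_pow,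
        HahnSeries.C_apply, ← mul_assoc, single_mul_single, zero_add, mul_one]
      congr 2
      simp
    rw [hpow, hD]
    have hre : HahnSeries.C (a⁻¹ ^ (m + 1)) * (single (-((m + 1 : ℕ) : ℤ)) (1 : k) *
          ((w ^ (m + 1) : PowerSeries k) : k⸨X⸩)) *
        (HahnSeries.C a * ((u + PowerSeries.X * PowerSeries.derivative k u : PowerSeries k) :
          k⸨X⸩)) =
        HahnSeries.C (a⁻¹ ^ (m + 1) * a) * (single (-((m + 1 : ℕ) : ℤ)) (1 : k) *
          ((w ^ (m + 1) * (u + PowerSeries.X * PowerSeries.derivative k u) : PowerSeries k) :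
            k⸨X⸩)) := by
      rw [map_mul, PowerSeries.coe_mul]
      ring
    rw [hre, res_C_mul, res_single_mul_coe, if_neg (Nat.succ_ne_zero m), Nat.add_sub_cancel]
    rcases Nat.eq_zero_or_pos m with hm | hm
    · subst hm
      have hc : PowerSeries.coeff 0
          (w ^ (0 + 1) * (u + PowerSeries.X * PowerSeries.derivative k u)) = 1 := by
        have : w ^ (0 + 1) * (u + PowerSeries.X * PowerSeries.derivative k u) =
            u * w + PowerSeries.X * (w * PowerSeries.derivative k u) := by ring
        rw [this, huw, map_add, PowerSeries.coeff_zero_X_mul, add_zero,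
          PowerSeries.coeff_zero_eq_constantCoeff_apply, map_one]
      rw [hc, if_pos (by norm_num)]
      simp [ha]
    · rw [coeff_eq_zero_of_mul_eq_one huw hu m hm, mul_zero, if_neg]
      push_cast
      omega

end Field

end Fermat.Agent.Lib.Residue
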