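import Fermat.Agent.Lib.Residue.Ramified
import Fermat.Agent.S28.Basic

set_option autoImplicit false

/-!
# Twist-invariant Laurent series and orbits of embeddings

A Laurent series invariant under `z ↦ ξ z`, `ξ` a primitive `m`-th root of unity, is a series in
`z ^ m`; a ring homomorphism into `R⸨z⸩` with invariant values factors through `qExpand R m`.
A finite set of homomorphisms `E → k⸨z⸩` stable under twisting by a primitive `M`-th root of
unity decomposes into orbits (the "cusps"), and each orbit representative factors through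
`qExpand k (M / w)`, `w` the size of the orbit.
-/

namespace Fermat.Agent.Lib.Residue

open HahnSeries LaurentSeries ModularCurve Fermat.Agent.S28

section Twist

variable {R : Type*} [CommRing R]

/-- Chain rule for the substitution `z ↦ ζ z`. -/
theorem D_twist (ζ : Rˣ) (f : R⸨X⸩) :
    D (twist ζ f) = HahnSeries.C (ζ : R) * twist ζ (D f) := by
  ext n
  rw [D_coeff, twist_coeff, HahnSeries.C_apply, coeff_single_mul', sub_zero, twist_coeff, D_coeff,
    zpow_add, zpow_one, Units.val_mul]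
  ring

theorem res_twist (ζ : Rˣ) (f : R⸨X⸩) :
    res (twist ζ f) = ((ζ⁻¹ : Rˣ) : R) * res f := by
  rw [res, res, twist_coeff, zpow_neg, zpow_one]

/-- The residue of `g dh` is invariant under the substitution `z ↦ ζ z`. -/
theorem res_twist_mul_D_twist (ζ : Rˣ) (g h : R⸨X⸩) :
    res (twist ζ g * D (twist ζ h)) = res (g * D h) := by
  rw [D_twist, mul_left_comm, res_C_mul, ← map_mul, res_twist, ← mul_assoc, ← Units.val_mul,
    mul_inv_cancel, Units.val_one, one_mul]

theorem trE_one (e : ℕ) [NeZero e] : trE e (1 : R⸨X⸩) = HahnSeries.C (e : R) := by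
  ext n
  rw [trE_coeff, HahnSeries.coeff_one, HahnSeries.C_apply, HahnSeries.coeff_single]
  have he : (e : ℤ) ≠ 0 := by exact_mod_cast NeZero.ne e
  by_cases hn : n = 0
  · subst hn; simp
  · rw [if_neg (mul_ne_zero he hn), if_neg hn, mul_zero]

/-- The residue of `g dh` is multiplied by `e` under the substitution `x = y ^ e`. -/
theorem res_qExpand_mul_D_qExpand (e : ℕ) [NeZero e] (g h : R⸨X⸩) :
    res (qExpand R e g * D (qExpand R e h)) = (e : R) * res (g * D h) := by
  have := res_trE_mul_D e (1 : R⸨X⸩) g h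
  rw [one_mul, trE_one, mul_assoc, res_C_mul] at this
  exact this.symm

end Twist

section Invariant

variable {R : Type*} [CommRing R] [IsDomain R]

/-- A twist-invariant series has no coefficients outside the multiples of the order of `ξ`. -/
theorem coeff_eq_zero_of_twist_eq {ξ : Rˣ} {m : ℕ} (hξ : IsPrimitiveRoot ξ m) {f : R⸨X⸩}
    (hf : twist ξ f = f) {n : ℤ} (hn : ¬ (m : ℤ) ∣ n) : f.coeff n = 0 := by
  have h1 := congrArg (fun g : R⸨X⸩ => g.coeff n) hf
  simp only [twist_coeff] at h1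
  have h2 : (((ξ ^ n : Rˣ) : R) - 1) * f.coeff n = 0 := by rw [sub_mul, h1, one_mul, sub_self]
  rcases mul_eq_zero.mp h2 with h3 | h3
  · exfalso
    apply hn
    rw [← hξ.zpow_eq_one_iff_dvd]
    apply Units.ext
    rw [Units.val_one]
    exact sub_eq_zero.mp h3
  · exact h3

variable (m : ℕ) [NeZero m]

/-- A twist-invariant series is a series in `z ^ m`. -/
theorem qExpand_sec_of_twist_eq {ξ : Rˣ} (hξ : IsPrimitiveRoot ξ m) {f : R⸨X⸩}
    (hf : twist ξ f = f) : qExpand R m (sec m 0 f) = f := by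
  ext n
  by_cases hn : (m : ℤ) ∣ n
  · obtain ⟨j, rfl⟩ := hn
    rw [qExpand_coeff_mul, sec_coeff, Nat.cast_zero, add_zero]
  · rw [qExpand_coeff_of_not_dvd m _ hn, coeff_eq_zero_of_twist_eq hξ hf hn]

omit [IsDomain R] in
theorem sec_zero_qExpand (g : R⸨X⸩) : sec m 0 (qExpand R m g) = g := by
  ext n
  rw [sec_coeff, Nat.cast_zero, add_zero, qExpand_coeff_mul]

variable {E : Type*} [Semiring E]

/-- A homomorphism with twist-invariant values, contracted along `z ^ m ↦ z`. -/
noncomputable def contractHom {ξ : Rˣ} (hξ : IsPrimitiveRoot ξ m) (s : E →+* R⸨X⸩)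
    (hs : ∀ x, twist ξ (s x) = s x) : E →+* R⸨X⸩ where
  toFun x := sec m 0 (s x)
  map_one' := by
    apply qExpand_injective (R := R) m
    rw [qExpand_sec_of_twist_eq m hξ (hs 1), map_one, map_one]
  map_mul' x y := by
    apply qExpand_injective (R := R) m
    rw [qExpand_sec_of_twist_eq m hξ (hs _), map_mul, map_mul,
      qExpand_sec_of_twist_eq m hξ (hs x), qExpand_sec_of_twist_eq m hξ (hs y)]
  map_zero' := by rw [map_zero, sec_zero]
  map_add' x y := by rw [map_add, sec_add]

theorem contractHom_apply {ξ : Rˣ} (hξ : IsPrimitiveRoot ξ m) (s : E →+* R⸨X⸩)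
    (hs : ∀ x, twist ξ (s x) = s x) (x : E) : contractHom m hξ s hs x = sec m 0 (s x) := rfl

theorem qExpand_comp_contractHom {ξ : Rˣ} (hξ : IsPrimitiveRoot ξ m) (s : E →+* R⸨X⸩)
    (hs : ∀ x, twist ξ (s x) = s x) : (qExpand R m).comp (contractHom m hξ s hs) = s := by
  ext x : 1
  rw [RingHom.comp_apply, contractHom_apply, qExpand_sec_of_twist_eq m hξ (hs x)]

end Invariant

section Orbit

variable {k : Type*} [CommRing k] {E : Type*} [Semiring E] (ζ : kˣ)

/-- The twisting action `s ↦ twist (ζ ^ b) ∘ s` on homomorphisms into `k⸨z⸩`. -/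
noncomputable def twistHom (b : ℕ) (s : E →+* k⸨X⸩) : E →+* k⸨X⸩ := (twist (ζ ^ b)).comp s

theorem twistHom_apply (b : ℕ) (s : E →+* k⸨X⸩) (x : E) :
    twistHom ζ b s x = twist (ζ ^ b) (s x) := rfl

theorem twistHom_zero (s : E →+* k⸨X⸩) : twistHom ζ 0 s = s := by
  ext x : 1
  rw [twistHom_apply, pow_zero, twist_one]

theorem twistHom_add (b b' : ℕ) (s : E →+* k⸨X⸩) :
    twistHom ζ (b + b') s = twistHom ζ b (twistHom ζ b' s) := by
  ext x : 1
  rw [twistHom_apply, twistHom_apply, twistHom_apply, twist_twist, _root_.pow_add]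

theorem twistHom_injective (b : ℕ) : Function.Injective (twistHom ζ b (E := E)) := by
  intro s s' h
  ext x : 1
  apply twist_injective (ζ ^ b)
  rw [← twistHom_apply, ← twistHom_apply, h]

/-- The period of `s` under twisting: the least `b > 0` with `twist (ζ ^ b) ∘ s = s`. -/
noncomputable def twistPeriod (s : E →+* k⸨X⸩) : ℕ := sInf {b | 0 < b ∧ twistHom ζ b s = s}

variable {ζ} {M : ℕ} [NeZero M] (hζ : ζ ^ M = 1)

include hζ

omit [NeZero M] in
theorem twistHom_order (s : E →+* k⸨X⸩) : twistHom ζ M s = s := by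
  ext x : 1
  rw [twistHom_apply, hζ, twist_one]

theorem twistPeriod_mem (s : E →+* k⸨X⸩) :
    0 < twistPeriod ζ s ∧ twistHom ζ (twistPeriod ζ s) s = s :=
  Nat.sInf_mem (s := {b | 0 < b ∧ twistHom ζ b s = s})
    ⟨M, Nat.pos_of_ne_zero (NeZero.ne M), twistHom_order hζ s⟩

theorem twistPeriod_pos (s : E →+* k⸨X⸩) : 0 < twistPeriod ζ s := (twistPeriod_mem hζ s).1

theorem twistHom_twistPeriod (s : E →+* k⸨X⸩) : twistHom ζ (twistPeriod ζ s) s = s :=
  (twistPeriod_mem hζ s).2

theorem twistHom_mul_twistPeriod (s : E →+* k⸨X⸩) (j : ℕ) :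
    twistHom ζ (twistPeriod ζ s * j) s = s := by
  induction j with
  | zero => rw [mul_zero, twistHom_zero]
  | succ j ih => rw [mul_add, mul_one, twistHom_add, twistHom_twistPeriod hζ, ih]

theorem twistHom_mod (s : E →+* k⸨X⸩) (b : ℕ) :
    twistHom ζ b s = twistHom ζ (b % twistPeriod ζ s) s := by
  conv_lhs => rw [← Nat.mod_add_div b (twistPeriod ζ s), twistHom_add,
    twistHom_mul_twistPeriod hζ]

theorem twistHom_eq_self_iff (s : E →+* k⸨X⸩) (b : ℕ) :
    twistHom ζ b s = s ↔ twistPeriod ζ s ∣ b := by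
  constructor
  · intro h
    rw [twistHom_mod hζ] at h
    by_contra hdvd
    have hpos : 0 < b % twistPeriod ζ s :=
      Nat.pos_of_ne_zero fun h0 => hdvd (Nat.dvd_of_mod_eq_zero h0)
    have hle : twistPeriod ζ s ≤ b % twistPeriod ζ s :=
      Nat.sInf_le (s := {b | 0 < b ∧ twistHom ζ b s = s}) ⟨hpos, h⟩
    exact absurd (Nat.mod_lt b (twistPeriod_pos hζ s)) (not_lt.mpr hle)
  · rintro ⟨j, rfl⟩
    exact twistHom_mul_twistPeriod hζ s j

theorem twistPeriod_dvd (s : E →+* k⸨X⸩) : twistPeriod ζ s ∣ M :=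
  (twistHom_eq_self_iff hζ s M).mp (twistHom_order hζ s)

theorem neZero_div_twistPeriod (s : E →+* k⸨X⸩) : NeZero (M / twistPeriod ζ s) :=
  ⟨(Nat.div_pos (Nat.le_of_dvd (Nat.pos_of_ne_zero (NeZero.ne M)) (twistPeriod_dvd hζ s))
    (twistPeriod_pos hζ s)).ne'⟩

theorem twistPeriod_mul_div (s : E →+* k⸨X⸩) : twistPeriod ζ s * (M / twistPeriod ζ s) = M :=
  Nat.mul_div_cancel' (twistPeriod_dvd hζ s)

theorem twistHom_injOn (s : E →+* k⸨X⸩) {b b' : ℕ} (hb : b < twistPeriod ζ s)
    (hb' : b' < twistPeriod ζ s) (h : twistHom ζ b s = twistHom ζ b' s) : b = b' := by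
  wlog hle : b ≤ b' generalizing b b'
  · exact (this hb' hb h.symm (le_of_not_ge hle)).symm
  obtain ⟨d, rfl⟩ := Nat.exists_eq_add_of_le hle
  rw [twistHom_add] at h
  have h1 := (twistHom_eq_self_iff hζ s d).mp (twistHom_injective ζ b h).symm
  have hd : d < twistPeriod ζ s := by omega
  have : d = 0 := Nat.eq_zero_of_dvd_of_lt h1 hd
  omega

/-- The orbit relation of the twisting action. -/
def twistSetoid : Setoid (E →+* k⸨X⸩) where
  r s s' := ∃ b, s' = twistHom ζ b s
  iseqv := by
    have hM : 0 < M := Nat.pos_of_ne_zero (NeZero.ne M)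
    refine ⟨fun s => ⟨0, (twistHom_zero ζ s).symm⟩, ?_, ?_⟩
    · rintro s s' ⟨b, rfl⟩
      refine ⟨M - b % M, ?_⟩
      have hlt : b % M < M := Nat.mod_lt b hM
      have h1 : twistHom ζ b s = twistHom ζ (b % M) s := by
        conv_lhs => rw [← Nat.mod_add_div b M, twistHom_add]
        congr 1
        have : ∀ j, twistHom ζ (M * j) s = s := by
          intro j
          induction j with
          | zero => rw [mul_zero, twistHom_zero]
          | succ j ih => rw [mul_add, mul_one, twistHom_add, twistHom_order hζ, ih]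
        exact this _
      rw [h1, ← twistHom_add, Nat.sub_add_cancel hlt.le, twistHom_order hζ]
    · rintro s s' s'' ⟨b, rfl⟩ ⟨b', rfl⟩
      exact ⟨b' + b, by rw [twistHom_add]⟩

omit [NeZero M] hζ in
theorem twistHom_mem_of_stable (Sig : Finset (E →+* k⸨X⸩))
    (hstable : ∀ s ∈ Sig, twistHom ζ 1 s ∈ Sig) (b : ℕ) {s : E →+* k⸨X⸩} (hs : s ∈ Sig) :
    twistHom ζ b s ∈ Sig := by
  induction b with
  | zero => rwa [twistHom_zero]
  | succ b ih => rw [add_comm, twistHom_add]; exact hstable _ ih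

open scoped Classical in
/-- **Orbit decomposition.**  A finite set of homomorphisms stable under twisting is the disjoint
union of the orbits `{twistHom ζ b c | b < twistPeriod ζ c}` of a set `C` of representatives. -/
theorem exists_orbit_representatives (Sig : Finset (E →+* k⸨X⸩))
    (hstable : ∀ s ∈ Sig, twistHom ζ 1 s ∈ Sig) :
    ∃ C : Finset (E →+* k⸨X⸩), C ⊆ Sig ∧
      Set.InjOn (fun i : Σ _ : E →+* k⸨X⸩, ℕ => twistHom ζ i.2 i.1)
        (C.sigma fun c => Finset.range (twistPeriod ζ c)) ∧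
      (C.sigma fun c => Finset.range (twistPeriod ζ c)).image
        (fun i => twistHom ζ i.2 i.1) = Sig := by
  let st : Setoid (E →+* k⸨X⸩) := twistSetoid hζ
  let rep : (E →+* k⸨X⸩) → (E →+* k⸨X⸩) := fun s => (Quotient.mk st s).out
  have hrep : ∀ s, ∃ b, s = twistHom ζ b (rep s) := fun s => Quotient.mk_out (s := st) s
  have hrep' : ∀ s, ∃ b, rep s = twistHom ζ b s := fun s => st.symm (Quotient.mk_out (s := st) s)
  have hrepmk : ∀ s, Quotient.mk st (rep s) = Quotient.mk st s := fun s => Quotient.out_eq _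
  have hCsub : Sig.image rep ⊆ Sig := by
    intro c hc
    obtain ⟨s, hs, rfl⟩ := Finset.mem_image.mp hc
    obtain ⟨b, hb⟩ := hrep' s
    rw [hb]
    exact twistHom_mem_of_stable Sig hstable b hs
  refine ⟨Sig.image rep, hCsub, ?_, ?_⟩
  · rintro ⟨c, b⟩ hi ⟨c', b'⟩ hi' heq
    rw [Finset.mem_coe, Finset.mem_sigma, Finset.mem_range] at hi hi'
    simp only at hi hi' heq
    obtain ⟨s, -, hs⟩ := Finset.mem_image.mp hi.1
    obtain ⟨s', -, hs'⟩ := Finset.mem_image.mp hi'.1
    have hcc' : Quotient.mk st c = Quotient.mk st c' := by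
      apply Quotient.sound
      have h1 : st.r c (twistHom ζ b c) := ⟨b, rfl⟩
      have h2 : st.r c' (twistHom ζ b' c') := ⟨b', rfl⟩
      rw [heq] at h1
      exact st.trans h1 (st.symm h2)
    have hc : rep c = c := by
      change (Quotient.mk st c).out = c
      rw [← hs, hrepmk]
    have hc' : rep c' = c' := by
      change (Quotient.mk st c').out = c'
      rw [← hs', hrepmk]
    have hceq : c = c' := by
      rw [← hc, ← hc']
      change (Quotient.mk st c).out = (Quotient.mk st c').out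
      rw [hcc']
    subst hceq
    have hb : b = b' := twistHom_injOn hζ c hi.2 hi'.2 heq
    subst hb
    rfl
  · ext s
    rw [Finset.mem_image]
    constructor
    · rintro ⟨⟨c, b⟩, hi, rfl⟩
      rw [Finset.mem_sigma] at hi
      exact twistHom_mem_of_stable Sig hstable b (hCsub hi.1)
    · intro hs
      obtain ⟨b, hb⟩ := hrep s
      refine ⟨⟨rep s, b % twistPeriod ζ (rep s)⟩, ?_, ?_⟩
      · rw [Finset.mem_sigma, Finset.mem_range]
        exact ⟨Finset.mem_image_of_mem rep hs, Nat.mod_lt _ (twistPeriod_pos hζ _)⟩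
      · change twistHom ζ (b % twistPeriod ζ (rep s)) (rep s) = s
        rw [← twistHom_mod hζ, ← hb]

omit [NeZero M] hζ in
open scoped Classical in
theorem card_eq_sum_twistPeriod (Sig C : Finset (E →+* k⸨X⸩))
    (hinj : Set.InjOn (fun i : Σ _ : E →+* k⸨X⸩, ℕ => twistHom ζ i.2 i.1)
        (C.sigma fun c => Finset.range (twistPeriod ζ c)))
    (himg : (C.sigma fun c => Finset.range (twistPeriod ζ c)).image
        (fun i => twistHom ζ i.2 i.1) = Sig) :
    Sig.card = ∑ c ∈ C, twistPeriod ζ c := by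
  rw [← himg, Finset.card_image_of_injOn hinj, Finset.card_sigma]
  simp

end Orbit

section OrbitExpn

variable {k : Type*} [CommRing k] [IsDomain k] {E : Type*} [Semiring E] {ζ : kˣ} {M : ℕ}
  [NeZero M] (hζ : IsPrimitiveRoot ζ M)

omit [IsDomain k] in
include hζ in
theorem isPrimitiveRoot_pow_twistPeriod (s : E →+* k⸨X⸩) :
    IsPrimitiveRoot (ζ ^ twistPeriod ζ s) (M / twistPeriod ζ s) :=
  hζ.pow_of_dvd (twistPeriod_pos hζ.pow_eq_one s).ne' (twistPeriod_dvd hζ.pow_eq_one s)

/-- The expansion of `s` in the local parameter `y = z ^ (M / w)`, `w` the twisting period of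
`s`: `s = qExpand k (M / w) ∘ orbitExpn hζ s`. -/
noncomputable def orbitExpn (s : E →+* k⸨X⸩) : E →+* k⸨X⸩ :=
  haveI := neZero_div_twistPeriod hζ.pow_eq_one s
  contractHom (M / twistPeriod ζ s) (isPrimitiveRoot_pow_twistPeriod hζ s) s fun x => by
    rw [← twistHom_apply, twistHom_twistPeriod hζ.pow_eq_one]

theorem qExpand_comp_orbitExpn (s : E →+* k⸨X⸩) [NeZero (M / twistPeriod ζ s)] :
    (qExpand k (M / twistPeriod ζ s)).comp (orbitExpn hζ s) = s :=
  qExpand_comp_contractHom _ _ s _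

theorem qExpand_orbitExpn_apply (s : E →+* k⸨X⸩) [NeZero (M / twistPeriod ζ s)] (x : E) :
    qExpand k (M / twistPeriod ζ s) (orbitExpn hζ s x) = s x := by
  rw [← RingHom.comp_apply, qExpand_comp_orbitExpn]

theorem orbitExpn_apply (s : E →+* k⸨X⸩) [NeZero (M / twistPeriod ζ s)] (x : E) :
    orbitExpn hζ s x = sec (M / twistPeriod ζ s) 0 (s x) := rfl

end OrbitExpn

end Fermat.Agent.Lib.Residue
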